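import Mathlib.NumberTheory.FermatPsp
import Mathlib.NumberTheory.LegendreSymbol.Basic
import Mathlib.FieldTheory.Finite.Basic
import Mathlib.RingTheory.ZMod.UnitsCyclic
import Mathlib.Data.Nat.Squarefree
import Mathlib.Tactic

/-!
# The criteria of Korselt, Pocklington and Proth
-/

set_option autoImplicit false

open Finset

namespace FA.PrimalityCriteria

theorem one_add_pow_sq (p k : ℕ) :
    ((1 : ZMod (p ^ 2)) + p) ^ k = 1 + (k : ZMod (p ^ 2)) * p := by
  have hp : ((p : ZMod (p ^ 2))) * p = 0 := by rw [← Nat.cast_mul, ← sq, ZMod.natCast_self]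
  induction k with
  | zero => simp
  | succ k ih =>
    rw [pow_succ (1 + (p : ZMod (p ^ 2))), ih]
    push_cast
    linear_combination (k : ZMod (p ^ 2)) * hp

theorem forall_units_iff {n : ℕ} (hn : 1 < n) :
    (∀ u : (ZMod n)ˣ, u ^ (n - 1) = 1) ↔ ∀ b : ℕ, b.Coprime n → b ^ (n - 1) ≡ 1 [MOD n] := by
  have : NeZero n := ⟨by omega⟩
  refine ⟨fun h b hb => ?_, fun h u => ?_⟩
  · rw [← ZMod.natCast_eq_natCast_iff, Nat.cast_pow, Nat.cast_one]
    have := congrArg Units.val (h (ZMod.unitOfCoprime b hb))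
    rwa [Units.val_pow_eq_pow_val, ZMod.coe_unitOfCoprime, Units.val_one] at this
  · have := h _ (ZMod.val_coe_unit_coprime u)
    rw [← ZMod.natCast_eq_natCast_iff, Nat.cast_pow, Nat.cast_one, ZMod.natCast_zmod_val] at this
    exact Units.ext (by rwa [Units.val_pow_eq_pow_val, Units.val_one])

/-- **Korselt's criterion.** -/
theorem korselt {n : ℕ} (hn : 1 < n) :
    (∀ b : ℕ, b.Coprime n → b ^ (n - 1) ≡ 1 [MOD n]) ↔
      Squarefree n ∧ ∀ p, p.Prime → p ∣ n → p - 1 ∣ n - 1 := by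
  have : NeZero n := ⟨by omega⟩
  constructor
  · intro h
    rw [← forall_units_iff hn] at h
    have hlift : ∀ d, d ∣ n → ∀ v : (ZMod d)ˣ, v ^ (n - 1) = 1 := fun d hd v => by
      obtain ⟨u, rfl⟩ := ZMod.unitsMap_surjective hd v
      rw [← map_pow, h u, map_one]
    refine ⟨Nat.squarefree_iff_prime_squarefree.2 fun p hp hd => ?_, fun p hp hd => ?_⟩
    · have hdp : p ∣ n := (dvd_mul_left p p).trans hd
      have : NeZero (p ^ 2) := ⟨pow_ne_zero _ hp.ne_zero⟩
      have hu : IsUnit ((1 : ZMod (p ^ 2)) + p) :=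
        (IsNilpotent.isUnit_add_left_of_commute ⟨2, by
          rw [← Nat.cast_pow, ZMod.natCast_self]⟩ isUnit_one (Commute.one_right _))
      have h1 := congrArg Units.val (hlift (p ^ 2) (by rwa [sq]) hu.unit)
      rw [Units.val_pow_eq_pow_val, IsUnit.unit_spec, one_add_pow_sq, Units.val_one,
        add_eq_left, ← Nat.cast_mul, ZMod.natCast_eq_zero_iff, sq] at h1
      have h2 : p ∣ n - 1 := Nat.dvd_of_mul_dvd_mul_right hp.pos h1
      have := Nat.dvd_sub hdp h2
      rw [show n - (n - 1) = 1 by omega] at this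
      exact hp.one_lt.ne' (Nat.dvd_one.1 this)
    · have := Fact.mk hp
      obtain ⟨g, hg⟩ := IsCyclic.exists_generator (α := (ZMod p)ˣ)
      rw [← ZMod.card_units p, ← Nat.card_eq_fintype_card,
        ← orderOf_eq_card_of_forall_mem_zpowers hg]
      exact orderOf_dvd_of_pow_eq_one (hlift p hd g)
  · rintro ⟨hsq, h⟩ b hb
    have hpos : 1 ≤ b ^ (n - 1) := by
      rcases Nat.eq_zero_or_pos b with rfl | hb0
      · rw [Nat.coprime_zero_left] at hb
        omega
      · exact Nat.one_le_pow _ _ hb0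
    refine ((Nat.modEq_iff_dvd' hpos).2 ?_).symm
    conv_lhs => rw [← Nat.prod_primeFactors_of_squarefree hsq]
    refine prod_primes_dvd _ (fun p hp => (Nat.prime_of_mem_primeFactors hp).prime) fun p hp => ?_
    obtain ⟨hp1, hp2, -⟩ := Nat.mem_primeFactors.1 hp
    have := Fact.mk hp1
    obtain ⟨k, hk⟩ := h p hp1 hp2
    rw [← Nat.modEq_iff_dvd' hpos, ← ZMod.natCast_eq_natCast_iff, Nat.cast_pow, Nat.cast_one, hk,
      pow_mul, ZMod.pow_card_sub_one_eq_one, one_pow]
    rw [Ne, ZMod.natCast_eq_zero_iff]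
    intro hpb
    exact hp1.one_lt.ne' (Nat.dvd_one.1 (hb.gcd_eq_one ▸ Nat.dvd_gcd hpb hp2))

/-- Carmichael numbers are odd with at least three prime factors. -/
theorem carmichael_structure {n : ℕ} (hn : 1 < n) (hc : ¬n.Prime)
    (h : ∀ b : ℕ, b.Coprime n → b ^ (n - 1) ≡ 1 [MOD n]) :
    Odd n ∧ 3 ≤ #n.primeFactors := by
  obtain ⟨hsq, hd⟩ := (korselt hn).1 h
  have hodd : Odd n := by
    by_contra hev
    rw [Nat.not_odd_iff_even, even_iff_two_dvd] at hev
    obtain ⟨m, rfl⟩ := hev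
    have hm : m ≠ 1 := fun hm => hc (by rw [hm]; exact Nat.prime_two)
    obtain ⟨p, hp, hpm⟩ := Nat.exists_prime_and_dvd hm
    rcases hp.eq_two_or_odd' with rfl | hpo
    · exact absurd (hsq 2 (mul_dvd_mul_left 2 hpm)) (by simp)
    · obtain ⟨j, rfl⟩ := hpo
      have h2 : (2 : ℕ) ∣ 2 * m - 1 :=
        (dvd_mul_right 2 j).trans (by simpa using hd _ hp (Dvd.dvd.mul_left hpm 2))
      omega
  refine ⟨hodd, ?_⟩
  by_contra! hlt
  have hprod := Nat.prod_primeFactors_of_squarefree hsq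
  have hcard : #n.primeFactors = 2 := by
    rcases Nat.lt_or_ge #n.primeFactors 2 with hs | hs
    · rcases card_le_one_iff_subset_singleton.1 (Nat.lt_succ_iff.1 hs) with ⟨p, hp⟩
      rcases subset_singleton_iff.1 hp with he | he
      · rw [he, prod_empty] at hprod
        omega
      · have hpp : p.Prime := Nat.prime_of_mem_primeFactors (he ▸ mem_singleton_self p)
        rw [he, prod_singleton] at hprod
        exact absurd (hprod ▸ hpp) hc
    · omega
  obtain ⟨p, q, hne, he⟩ := card_eq_two.1 hcard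
  rw [he, prod_pair hne] at hprod
  have key : ∀ a b, a.Prime → b.Prime → a < b → a * b = n → False := fun a b ha hb hab hn' => by
    have h1 := hd b hb (hn' ▸ dvd_mul_left b a)
    have h2 : b - 1 ∣ a - 1 := by
      have h3 : a * b - 1 = a * (b - 1) + (a - 1) := by
        have := Nat.mul_sub_one a b
        have := Nat.le_mul_of_pos_right a hb.pos
        have := ha.pos
        omega
      rw [← hn', h3] at h1
      exact (Nat.dvd_add_right (dvd_mul_left _ a)).1 h1
    have := Nat.le_of_dvd (by have := ha.two_le; omega) h2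
    have := ha.two_le
    omega
  have hp : p.Prime := Nat.prime_of_mem_primeFactors (he ▸ mem_insert_self p _)
  have hq : q.Prime :=
    Nat.prime_of_mem_primeFactors (he ▸ mem_insert_of_mem (mem_singleton_self q))
  rcases hne.lt_or_gt with hl | hl
  · exact key p q hp hq hl hprod
  · exact key q p hq hp hl (mul_comm q p ▸ hprod)

/-- **Pocklington's theorem**, the divisor part. -/
theorem dvd_sub_one {N F : ℕ} (hFN : F ∣ N - 1)
    (h : ∀ q, q.Prime → q ∣ F → ∃ a : ZMod N,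
      a ^ (N - 1) = 1 ∧ IsUnit (a ^ ((N - 1) / q) - 1))
    {p : ℕ} (hp : p.Prime) (hpN : p ∣ N) : F ∣ p - 1 := by
  have := Fact.mk hp
  refine (Nat.dvd_iff_prime_pow_dvd_dvd _ _).2 fun q k hq hk => ?_
  rcases k with _ | k
  · exact one_dvd _
  obtain ⟨a, ha1, ha2⟩ := h q hq ((dvd_pow_self q k.succ_ne_zero).trans hk)
  obtain ⟨r, hr⟩ := hk.trans hFN
  set φ := ZMod.castHom hpN (ZMod p)
  have e1 : (φ a ^ r) ^ q ^ (k + 1) = 1 := by
    rw [← pow_mul, mul_comm, ← hr, ← map_pow, ha1, map_one]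
  have e2 : ¬(φ a ^ r) ^ q ^ k = 1 := by
    rw [← pow_mul, ← map_pow, show r * q ^ k = (N - 1) / q by
      rw [hr, pow_succ, mul_right_comm, Nat.mul_div_cancel _ hq.pos, mul_comm]]
    intro he
    exact (ha2.map φ).ne_zero (by rw [map_sub, he, map_one, sub_self])
  have := Fact.mk hq
  rw [← orderOf_eq_prime_pow e2 e1]
  refine ZMod.orderOf_dvd_card_sub_one fun h0 => ?_
  rw [h0, zero_pow (pow_ne_zero _ hq.ne_zero)] at e1
  exact zero_ne_one e1

/-- **Pocklington's theorem.** -/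
theorem pocklington {N F : ℕ} (hN : 1 < N) (hFN : F ∣ N - 1) (hlt : N < (F + 1) ^ 2)
    (h : ∀ q, q.Prime → q ∣ F → ∃ a : ZMod N,
      a ^ (N - 1) = 1 ∧ IsUnit (a ^ ((N - 1) / q) - 1)) : N.Prime := by
  by_contra hc
  have hp := Nat.minFac_prime hN.ne'
  have h1 := Nat.minFac_sq_le_self (by omega) hc
  have h2 := Nat.le_of_dvd (by have := hp.two_le; omega) (dvd_sub_one hFN h hp N.minFac_dvd)
  have : (F + 1) ^ 2 ≤ N.minFac ^ 2 := Nat.pow_le_pow_left (by have := hp.two_le; omega) 2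
  omega

/-- **Proth's theorem.** -/
theorem proth {k m : ℕ} (hk : 0 < k) (hm : 0 < m) (hkm : k < 2 ^ m) :
    (k * 2 ^ m + 1).Prime ↔
      ∃ a : ZMod (k * 2 ^ m + 1), a ^ (k * 2 ^ (m - 1)) = -1 := by
  obtain ⟨j, rfl⟩ : ∃ j, m = j + 1 := ⟨m - 1, by omega⟩
  rw [Nat.add_sub_cancel]
  have hhalf : k * 2 ^ (j + 1) = 2 * (k * 2 ^ j) := by ring
  have hpos : 0 < k * 2 ^ j := by positivity
  constructor
  · intro hp
    have := Fact.mk hp
    have hc : ringChar (ZMod (k * 2 ^ (j + 1) + 1)) ≠ 2 := by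
      rw [ZMod.ringChar_zmod_n]
      omega
    obtain ⟨a, ha⟩ := FiniteField.exists_nonsquare hc
    have ha0 : a ≠ 0 := fun h0 => ha (h0 ▸ ⟨0, (mul_zero 0).symm⟩)
    have h := (ZMod.euler_criterion _ ha0).not.1 ha
    have h' := ZMod.pow_div_two_eq_neg_one_or_one _ ha0
    rw [show (k * 2 ^ (j + 1) + 1) / 2 = k * 2 ^ j by omega] at h h'
    exact ⟨a, h'.resolve_left h⟩
  · rintro ⟨a, ha⟩
    refine pocklington (by omega) (F := 2 ^ (j + 1)) ⟨k, by ring_nf; omega⟩ ?_ fun q hq hd => ?_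
    · nlinarith
    · obtain rfl := (Nat.prime_dvd_prime_iff_eq hq Nat.prime_two).1 (hq.dvd_of_dvd_pow hd)
      refine ⟨a, ?_, ?_⟩
      · rw [show k * 2 ^ (j + 1) + 1 - 1 = k * 2 ^ j * 2 by rw [Nat.add_sub_cancel]; ring, pow_mul,
          ha, neg_one_sq]
      · rw [Nat.add_sub_cancel, show k * 2 ^ (j + 1) / 2 = k * 2 ^ j by omega, ha,
          show (-1 : ZMod (k * 2 ^ (j + 1) + 1)) - 1 = -((2 : ℕ) : ZMod _) by push_cast; ring,
          IsUnit.neg_iff, ZMod.isUnit_iff_coprime, Nat.coprime_two_left]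
        exact ⟨k * 2 ^ j, by omega⟩

/-- **Chernick's Carmichael numbers.** -/
theorem chernick {k : ℕ} (hk : 0 < k) (h1 : (6 * k + 1).Prime) (h2 : (12 * k + 1).Prime)
    (h3 : (18 * k + 1).Prime) :
    ∀ b : ℕ, b.Coprime ((6 * k + 1) * (12 * k + 1) * (18 * k + 1)) →
      b ^ ((6 * k + 1) * (12 * k + 1) * (18 * k + 1) - 1) ≡ 1
        [MOD (6 * k + 1) * (12 * k + 1) * (18 * k + 1)] := by
  set n := (6 * k + 1) * (12 * k + 1) * (18 * k + 1) with hn
  have e : n = 36 * k * (36 * k ^ 2 + 11 * k + 1) + 1 := by rw [hn]; ring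
  refine (korselt (by rw [e]; nlinarith)).2 ⟨?_, fun p hp hd => ?_⟩
  · have c : ∀ {a b : ℕ}, a.Prime → b.Prime → a ≠ b → Nat.Coprime a b :=
      fun ha hb hab => (Nat.coprime_primes ha hb).2 hab
    rw [hn, Nat.squarefree_mul_iff, Nat.squarefree_mul_iff]
    exact ⟨Nat.Coprime.mul_left (c h1 h3 (by omega)) (c h2 h3 (by omega)),
      ⟨c h1 h2 (by omega), h1.squarefree, h2.squarefree⟩, h3.squarefree⟩
  · rw [e, Nat.add_sub_cancel]
    rw [hn] at hd
    refine Dvd.dvd.mul_right ?_ _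
    rcases (Nat.Prime.dvd_mul hp).1 hd with hd | hd
    · rcases (Nat.Prime.dvd_mul hp).1 hd with hd | hd
      · rw [(Nat.prime_dvd_prime_iff_eq hp h1).1 hd]
        exact ⟨6, by omega⟩
      · rw [(Nat.prime_dvd_prime_iff_eq hp h2).1 hd]
        exact ⟨3, by omega⟩
    · rw [(Nat.prime_dvd_prime_iff_eq hp h3).1 hd]
      exact ⟨2, by omega⟩

end FA.PrimalityCriteria
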